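import Mathlib

/-!
# Maximum principle on `Γ \ ℍ`

A holomorphic function on `ℍ` whose absolute value is invariant under a finite index subgroup `Γ`,
and which is periodic and bounded at infinity in every cusp chart, is constant.
-/

set_option autoImplicit false

noncomputable section

namespace Fermat.Agent.Periods

open UpperHalfPlane CongruenceSubgroup Filter Topology
open scoped MatrixGroups Manifold Real

theorem mdifferentiable_comp_SL_smul {φ : ℍ → ℂ} (hφ : MDiff φ) (δ : SL(2, ℤ)) :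
    MDiff (fun w : ℍ ↦ φ (δ • w)) :=
  hφ.comp (UpperHalfPlane.mdifferentiable_smul
    (g := Matrix.SpecialLinearGroup.mapGL ℝ δ) (by simp))

theorem periodic_comp_ofComplex_of_vadd {g : ℍ → ℂ} {h : ℝ}
    (hg : ∀ w : ℍ, g (h +ᵥ w) = g w) : Function.Periodic (g ∘ ofComplex) h := by
  intro w
  by_cases hw : 0 < w.im
  · have hw' : 0 < (w + (h : ℂ)).im := by simpa using hw
    simp only [Function.comp_apply, ofComplex_apply_of_im_pos hw, ofComplex_apply_of_im_pos hw']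
    rw [← hg ⟨w, hw⟩]
    congr 1
    apply UpperHalfPlane.ext
    simp [coe_vadd, add_comm]
  · have hw' : (w + (h : ℂ)).im ≤ 0 := by simpa using not_lt.mp hw
    simp only [Function.comp_apply]
    rw [ofComplex_apply_of_im_nonpos hw', ofComplex_apply_of_im_nonpos (not_lt.mp hw)]

/-- The maximum principle for a subgroup of finite index. -/
theorem eq_of_norm_invariant_of_finiteIndex (Γ : Subgroup SL(2, ℤ)) [Γ.FiniteIndex] {h₀ : ℝ}
    (hN : 0 < h₀) {φ : ℍ → ℂ} (hhol : MDiff φ)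
    (hinv : ∀ γ ∈ Γ, ∀ z : ℍ, ‖φ (γ • z)‖ = ‖φ z‖)
    (hper : ∀ (δ : SL(2, ℤ)) (w : ℍ), φ (δ • (h₀ +ᵥ w)) = φ (δ • w))
    (hbdd : ∀ δ : SL(2, ℤ), IsBoundedAtImInfty (fun w : ℍ ↦ φ (δ • w))) (a b : ℍ) :
    φ a = φ b := by
  classical
  have : Fintype (SL(2, ℤ) ⧸ Γ) := Fintype.ofFinite _
  set r : ℝ := Real.exp (-π / h₀) with hr
  have hr1 : r < 1 := by
    rw [hr, Real.exp_lt_one_iff]
    exact div_neg_of_neg_of_pos (neg_neg_of_pos Real.pi_pos) hN
  let δ : SL(2, ℤ) ⧸ Γ → SL(2, ℤ) := fun x ↦ x.out⁻¹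
  let Ψ : SL(2, ℤ) ⧸ Γ → ℂ → ℂ := fun x ↦ cuspFunction h₀ (fun w : ℍ ↦ φ (δ x • w))
  have hperΨ : ∀ x, Function.Periodic ((fun w : ℍ ↦ φ (δ x • w)) ∘ ofComplex) h₀ :=
    fun x ↦ periodic_comp_ofComplex_of_vadd (hper (δ x))
  have hdiff : ∀ x, DifferentiableOn ℂ (Ψ x) (Metric.ball 0 1) := fun x ↦
    differentiableOn_cuspFunction_ball hN (hperΨ x) (mdifferentiable_comp_SL_smul hhol _)
      (hbdd _)
  have hval : ∀ x (w : ℍ), Ψ x (Function.Periodic.qParam h₀ w) = φ (δ x • w) :=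
    fun x w ↦ eq_cuspFunction w hN.ne' (hperΨ x)
  have hmax : ∀ x, ∃ q ∈ Metric.closedBall (0 : ℂ) r,
      IsMaxOn (fun q ↦ ‖Ψ x q‖) (Metric.closedBall 0 r) q := fun x ↦
    (isCompact_closedBall _ _).exists_isMaxOn ⟨0, Metric.mem_closedBall_self (Real.exp_nonneg _)⟩
      ((hdiff x).continuousOn.mono (Metric.closedBall_subset_ball hr1)).norm
  choose q hqmem hqmax using hmax
  obtain ⟨x₀, -, hx₀⟩ := Finset.exists_max_image (Finset.univ : Finset (SL(2, ℤ) ⧸ Γ))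
    (fun x ↦ ‖Ψ x (q x)‖) ⟨QuotientGroup.mk 1, Finset.mem_univ _⟩
  have hbound : ∀ z : ℍ, ‖φ z‖ ≤ ‖Ψ x₀ (q x₀)‖ := by
    intro z
    obtain ⟨γ, hγ⟩ := ModularGroup.exists_one_half_le_im_smul z
    set w := γ • z with hw
    set x : SL(2, ℤ) ⧸ Γ := QuotientGroup.mk γ with hx
    obtain ⟨h, hh⟩ := QuotientGroup.mk_out_eq_mul (Γ) γ
    have hz : z = (h : SL(2, ℤ)) • (δ x • w) := by
      have hδ : δ x = (h : SL(2, ℤ))⁻¹ * γ⁻¹ := by
        simp only [δ, hx, hh, mul_inv_rev]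
      rw [hδ, hw, ← mul_smul, ← mul_smul]
      simp
    have hqw : Function.Periodic.qParam h₀ (w : ℂ) ∈ Metric.closedBall (0 : ℂ) r := by
      rw [mem_closedBall_zero_iff, Function.Periodic.norm_qParam, hr, Real.exp_le_exp]
      apply div_le_div_of_nonneg_right ?_ hN.le
      have : (1 : ℝ) / 2 ≤ (w : ℂ).im := hγ
      nlinarith [Real.pi_pos]
    calc ‖φ z‖ = ‖φ (δ x • w)‖ := by rw [hz]; exact hinv _ h.2 _
      _ = ‖Ψ x (Function.Periodic.qParam h₀ (w : ℂ))‖ := by rw [hval]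
      _ ≤ ‖Ψ x (q x)‖ := hqmax x hqw
      _ ≤ _ := hx₀ x (Finset.mem_univ _)
  have hmaxball : IsMaxOn (norm ∘ Ψ x₀) (Metric.ball 0 1) (q x₀) := by
    intro p hp
    rcases eq_or_ne p 0 with rfl | hp0
    · exact hqmax x₀ (Metric.mem_closedBall_self (Real.exp_nonneg _))
    · let w : ℍ := ⟨Function.Periodic.invQParam h₀ p,
        Function.Periodic.im_invQParam_pos_of_norm_lt_one hN (mem_ball_zero_iff.mp hp) hp0⟩
      have hpw : p = Function.Periodic.qParam h₀ (w : ℂ) :=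
        (Function.Periodic.qParam_right_inv hN.ne' hp0).symm
      show ‖Ψ x₀ p‖ ≤ ‖Ψ x₀ (q x₀)‖
      rw [hpw, hval]
      exact hbound _
  have hconst := Complex.eqOn_of_isPreconnected_of_isMaxOn_norm
    (convex_ball (0 : ℂ) 1).isPreconnected Metric.isOpen_ball (hdiff x₀)
    (Metric.closedBall_subset_ball hr1 (hqmem x₀)) hmaxball
  have hall : ∀ z : ℍ, φ z = Ψ x₀ (q x₀) := by
    intro z
    have hmem : Function.Periodic.qParam h₀ (((δ x₀)⁻¹ • z : ℍ) : ℂ) ∈ Metric.ball (0 : ℂ) 1 := by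
      simpa using Function.Periodic.norm_qParam_lt_one hN ((δ x₀)⁻¹ • z).im_pos
    have h := hconst hmem
    rw [hval, smul_inv_smul] at h
    simpa using h
  rw [hall a, hall b]

end Fermat.Agent.Periods
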