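import Mathlib
import Fermat.Prelude.Def_ModularCurve_PeriodMapBundled
import Fermat.Prelude.Def_ModularCurve_PeriodHomPair
import Fermat.Prelude.Thm_CongruenceSubgroup_one_mem_strictPeriods_Gamma0

/-!
# Equivariant primitives of weight two cusp forms on `Γ₀(N)`

Existence and uniqueness of the primitive used by `ModularCurve.periodMap`, its periodicity in
every cusp chart, linearity of the period map and vanishing of periods on parabolic elements.
-/

set_option autoImplicit false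

noncomputable section

namespace Fermat.Agent.Periods

open UpperHalfPlane CongruenceSubgroup Filter Topology ModularCurve ModularCurve.Period
open scoped MatrixGroups ModularForm Real Manifold

/-- A holomorphic function on `ℍ` with zero derivative is constant. -/
theorem eq_of_hasDerivAt_zero {G : ℍ → ℂ} (hG : ∀ τ : ℍ, HasDerivAt (G ∘ ofComplex) 0 (τ : ℂ))
    (a b : ℍ) : G a = G b := by
  have h1 : DifferentiableOn ℂ (G ∘ ofComplex) {z : ℂ | 0 < z.im} :=
    fun z hz ↦ (hG ⟨z, hz⟩).differentiableAt.differentiableWithinAt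
  have h2 : Set.EqOn (deriv (G ∘ ofComplex)) 0 {z : ℂ | 0 < z.im} :=
    fun z hz ↦ (hG ⟨z, hz⟩).deriv
  have h3 := isOpen_upperHalfPlaneSet.is_const_of_deriv_eq_zero
    (convex_halfSpace_im_gt 0).isPreconnected h1 h2 a.im_pos b.im_pos
  simpa [ofComplex_apply] using h3

/-- A periodic holomorphic function on `ℍ` vanishing at `i∞` has a periodic primitive which
tends to zero at `i∞`. -/
theorem exists_periodic_primitive {h : ℝ} (hh : 0 < h) {g : ℍ → ℂ}
    (hper : Function.Periodic (g ∘ ofComplex) h) (hhol : MDiff g) (hzero : IsZeroAtImInfty g) :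
    ∃ G : ℍ → ℂ, (∀ τ : ℍ, HasDerivAt (G ∘ ofComplex) (g τ) (τ : ℂ)) ∧
      Tendsto G atImInfty (𝓝 0) ∧ ∀ τ : ℍ, G (h +ᵥ τ) = G τ := by
  classical
  set φ := cuspFunction h g with hφ
  have hbdd : IsBoundedAtImInfty g := hzero.isBoundedAtImInfty
  have hdiff : DifferentiableOn ℂ φ (Metric.ball 0 1) :=
    differentiableOn_cuspFunction_ball hh hper hhol hbdd
  have hφ0 : φ 0 = 0 := by
    rw [hφ, cuspFunction_apply_zero hh (analyticAt_cuspFunction_zero hh hper hhol hbdd) hper,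
      hzero.valueAtInfty_eq_zero]
  have hψ : DifferentiableOn ℂ (dslope φ 0) (Metric.ball 0 1) :=
    (Complex.differentiableOn_dslope (Metric.ball_mem_nhds _ one_pos)).mpr hdiff
  obtain ⟨Ψ, hΨ0, hΨ⟩ := hψ.isExactOn_ball.with_val_at 0 0
  set c : ℂ := (h : ℂ) / (2 * π * Complex.I) with hc
  refine ⟨fun τ ↦ c * Ψ (Function.Periodic.qParam h τ), fun τ ↦ ?_, ?_, fun τ ↦ ?_⟩
  · have hq : Function.Periodic.qParam h (τ : ℂ) ∈ Metric.ball (0 : ℂ) 1 := by
      simpa using Function.Periodic.norm_qParam_lt_one hh τ.im_pos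
    have hd : HasDerivAt (fun z : ℂ ↦ Function.Periodic.qParam h z)
        (Function.Periodic.qParam h (τ : ℂ) * (2 * π * Complex.I / h)) τ := by
      have := (((hasDerivAt_id (τ : ℂ)).const_mul (2 * π * Complex.I)).div_const (h : ℂ)).cexp
      simpa [Function.Periodic.qParam, mul_one] using this
    have hcomp := ((hΨ _ hq).comp (τ : ℂ) hd).const_mul c
    have heq : ((fun τ : ℍ ↦ c * Ψ (Function.Periodic.qParam h τ)) ∘ ofComplex)
        =ᶠ[𝓝 (τ : ℂ)] fun z ↦ c * Ψ (Function.Periodic.qParam h z) := by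
      filter_upwards [isOpen_upperHalfPlaneSet.mem_nhds τ.im_pos] with z hz
      simp [Function.comp_apply, ofComplex_apply_of_im_pos hz]
    refine (hcomp.congr_of_eventuallyEq heq).congr_deriv ?_
    have hg : g τ = φ (Function.Periodic.qParam h (τ : ℂ)) :=
      (eq_cuspFunction τ hh.ne' hper).symm
    have hds := sub_smul_dslope φ 0 (Function.Periodic.qParam h (τ : ℂ))
    simp only [sub_zero, smul_eq_mul, hφ0] at hds
    rw [hg, ← hds, hc]
    have h1 : (h : ℂ) ≠ 0 := by exact_mod_cast hh.ne'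
    have h2 : (2 * π * Complex.I : ℂ) ≠ 0 := Complex.two_pi_I_ne_zero
    field_simp
  · have hcont : ContinuousAt Ψ 0 := (hΨ 0 (Metric.mem_ball_self one_pos)).continuousAt
    have h1 := (hcont.tendsto.comp (qParam_tendsto_atImInfty hh)).const_mul c
    simpa [hΨ0] using h1
  · suffices Function.Periodic.qParam h ((h +ᵥ τ : ℍ) : ℂ) = Function.Periodic.qParam h (τ : ℂ) by
      simp only [this]
    simp only [coe_vadd, Function.Periodic.qParam]
    rw [Complex.exp_eq_exp_iff_exists_int]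
    refine ⟨1, ?_⟩
    have h1 : (h : ℂ) ≠ 0 := by exact_mod_cast hh.ne'
    field_simp
    push_cast
    ring

/-- Precomposition of a primitive with `δ ∈ SL(2, ℤ)` is a primitive of the slashed function. -/
theorem hasDerivAt_comp_smul {F f : ℍ → ℂ}
    (hF : ∀ τ : ℍ, HasDerivAt (F ∘ ofComplex) (f τ) (τ : ℂ)) (δ : SL(2, ℤ)) (τ : ℍ) :
    HasDerivAt ((fun w : ℍ ↦ F (δ • w)) ∘ ofComplex) ((f ∣[(2 : ℤ)] δ) τ) (τ : ℂ) := by
  set g : GL (Fin 2) ℝ := Matrix.SpecialLinearGroup.mapGL ℝ δ with hg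
  have hdet : g.val.det = 1 := by
    rw [hg]
    exact (Matrix.SpecialLinearGroup.map (algebraMap ℤ ℝ) δ).2
  have hsmul : HasDerivAt (fun z : ℂ ↦ ((g • ofComplex z : ℍ) : ℂ))
      ((g.val.det : ℂ) / denom g τ ^ 2) τ :=
    (hasStrictDerivAt_smul (by rw [hdet]; norm_num) τ).hasDerivAt
  have hFat : HasDerivAt (F ∘ ofComplex) (f (δ • τ))
      ((fun z : ℂ ↦ ((g • ofComplex z : ℍ) : ℂ)) τ) := by
    have := hF (δ • τ)
    simpa [ofComplex_apply] using! this
  have h := hFat.comp (τ : ℂ) hsmul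
  have hfun : ((fun w : ℍ ↦ F (δ • w)) ∘ ofComplex)
      = (F ∘ ofComplex) ∘ fun z : ℂ ↦ ((g • ofComplex z : ℍ) : ℂ) := by
    funext z
    simp only [Function.comp_apply, ofComplex_apply]
    rfl
  rw [hfun]
  refine h.congr_deriv ?_
  rw [ModularForm.SL_slash_apply, hdet, zpow_neg, Complex.ofReal_one, one_div]
  rfl

theorem sub_const_of_hasDerivAt {A B f : ℍ → ℂ}
    (hA : ∀ τ : ℍ, HasDerivAt (A ∘ ofComplex) (f τ) (τ : ℂ))
    (hB : ∀ τ : ℍ, HasDerivAt (B ∘ ofComplex) (f τ) (τ : ℂ)) (a b : ℍ) :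
    A a - B a = A b - B b :=
  eq_of_hasDerivAt_zero (G := fun w ↦ A w - B w)
    (fun τ ↦ by simpa [Function.comp_def] using! (hA τ).sub (hB τ)) a b

/-- Two primitives vanishing at `i∞` are equal. -/
theorem eq_of_hasDerivAt_of_tendsto {A B f : ℍ → ℂ}
    (hA : ∀ τ : ℍ, HasDerivAt (A ∘ ofComplex) (f τ) (τ : ℂ))
    (hB : ∀ τ : ℍ, HasDerivAt (B ∘ ofComplex) (f τ) (τ : ℂ))
    (hA0 : Tendsto A atImInfty (𝓝 0)) (hB0 : Tendsto B atImInfty (𝓝 0)) : A = B := by
  funext z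
  have hc : ∀ w : ℍ, A w - B w = A z - B z := fun w ↦ sub_const_of_hasDerivAt hA hB w z
  have h1 : Tendsto (fun w : ℍ ↦ A w - B w) atImInfty (𝓝 (A z - B z)) := by simp [hc]
  have h2 : Tendsto (fun w : ℍ ↦ A w - B w) atImInfty (𝓝 0) := by simpa using hA0.sub hB0
  exact sub_eq_zero.mp (tendsto_nhds_unique h1 h2)

/-- A primitive differs in a cusp chart by a constant from that of the chart, so it has a limit. -/
theorem exists_tendsto_comp_smul {F f G : ℍ → ℂ}
    (hF : ∀ τ : ℍ, HasDerivAt (F ∘ ofComplex) (f τ) (τ : ℂ)) (δ : SL(2, ℤ))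
    (hG : ∀ τ : ℍ, HasDerivAt (G ∘ ofComplex) ((f ∣[(2 : ℤ)] δ) τ) (τ : ℂ))
    (hG0 : Tendsto G atImInfty (𝓝 0)) :
    ∃ L : ℂ, Tendsto (fun w : ℍ ↦ F (δ • w)) atImInfty (𝓝 L) := by
  refine ⟨F (δ • UpperHalfPlane.I) - G UpperHalfPlane.I, ?_⟩
  have heq : (fun w : ℍ ↦ F (δ • w))
      = fun w ↦ G w + (F (δ • UpperHalfPlane.I) - G UpperHalfPlane.I) := by
    funext w
    have := sub_const_of_hasDerivAt (hasDerivAt_comp_smul hF δ) hG w UpperHalfPlane.I
    linear_combination this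
  rw [heq]
  simpa using hG0.add_const (F (δ • UpperHalfPlane.I) - G UpperHalfPlane.I)

/-- A primitive is as periodic in a cusp chart as the primitive of the chart. -/
theorem comp_smul_periodic_of_chart {F f G : ℍ → ℂ} {h : ℝ}
    (hF : ∀ τ : ℍ, HasDerivAt (F ∘ ofComplex) (f τ) (τ : ℂ)) (δ : SL(2, ℤ))
    (hG : ∀ τ : ℍ, HasDerivAt (G ∘ ofComplex) ((f ∣[(2 : ℤ)] δ) τ) (τ : ℂ))
    (hper : ∀ τ : ℍ, G (h +ᵥ τ) = G τ) (w : ℍ) : F (δ • (h +ᵥ w)) = F (δ • w) := by
  have := sub_const_of_hasDerivAt (hasDerivAt_comp_smul hF δ) hG (h +ᵥ w) w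
  rw [hper] at this
  linear_combination this

theorem conj_T_zpow_mem_Gamma0 (N : ℕ) (δ : SL(2, ℤ)) (m : ℤ) :
    δ * ModularGroup.T ^ ((N : ℤ) * m) * δ⁻¹ ∈ Gamma0 N := by
  have h1 : ModularGroup.T ^ ((N : ℤ) * m) ∈ Gamma (Int.natAbs N) :=
    ModularGroup_T_pow_mem_Gamma N _ (dvd_mul_right _ _)
  rw [Int.natAbs_natCast] at h1
  have h2 : δ * ModularGroup.T ^ ((N : ℤ) * m) * δ⁻¹ ∈ Gamma N :=
    (Gamma_normal N).conj_mem _ h1 δ
  rw [Gamma_mem] at h2
  exact Gamma0_mem.mpr h2.2.2.1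

theorem slash_periodic_aux {k : ℤ} {g : ℍ → ℂ} {m : ℤ} (hg : g ∣[k] (ModularGroup.T ^ m) = g) :
    Function.Periodic (g ∘ ofComplex) ((m : ℝ) : ℂ) := by
  intro w
  by_cases hw : 0 < w.im
  · have hw' : 0 < (w + ((m : ℝ) : ℂ)).im := by simpa using hw
    have := congrFun hg ⟨w, hw⟩
    rw [ModularForm.SL_slash_apply, modular_T_zpow_smul] at this
    simp only [Function.comp_apply, ofComplex_apply_of_im_pos hw, ofComplex_apply_of_im_pos hw']
    have h0 : (ModularGroup.T ^ m : SL(2, ℤ)) 1 0 = 0 := by simp [ModularGroup.coe_T_zpow]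
    have h1 : (ModularGroup.T ^ m : SL(2, ℤ)) 1 1 = 1 := by simp [ModularGroup.coe_T_zpow]
    have hd : denom (ModularGroup.T ^ m : SL(2, ℤ)) (⟨w, hw⟩ : ℍ) = 1 := by
      rw [ModularGroup.denom_apply, h0, h1]
      simp
    rw [hd, one_zpow, mul_one] at this
    rw [← this]
    congr 1
    apply UpperHalfPlane.ext
    simp [coe_vadd, add_comm]
  · have hw' : (w + ((m : ℝ) : ℂ)).im ≤ 0 := by simpa using not_lt.mp hw
    simp only [Function.comp_apply]
    rw [ofComplex_apply_of_im_nonpos hw', ofComplex_apply_of_im_nonpos (not_lt.mp hw)]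

variable {N : ℕ} [NeZero N]

/-- In a chart at a cusp of width dividing `h`, a weight two cusp form has an `h`-periodic
primitive vanishing at `i∞`. -/
theorem exists_periodic_chart_primitive {Γ : Subgroup SL(2, ℤ)} [Γ.FiniteIndex]
    (f : CuspForm (Γ : Subgroup (GL (Fin 2) ℝ)) 2) (δ : SL(2, ℤ)) {h : ℕ} (hh : 0 < h)
    (hmem : δ * ModularGroup.T ^ (h : ℤ) * δ⁻¹ ∈ Γ) :
    ∃ G : ℍ → ℂ, (∀ τ : ℍ, HasDerivAt (G ∘ ofComplex) (((f : ℍ → ℂ) ∣[(2 : ℤ)] δ) τ) (τ : ℂ)) ∧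
      Tendsto G atImInfty (𝓝 0) ∧ ∀ τ : ℍ, G ((h : ℝ) +ᵥ τ) = G τ := by
  refine exists_periodic_primitive (by exact_mod_cast hh) ?_ ?_ ?_
  · have hinv : (f : ℍ → ℂ) ∣[(2 : ℤ)] (δ * ModularGroup.T ^ (h : ℤ) * δ⁻¹) = f :=
      SlashInvariantFormClass.slash_action_eq f _ (Subgroup.mem_map_of_mem _ hmem)
    have hper : ((f : ℍ → ℂ) ∣[(2 : ℤ)] δ) ∣[(2 : ℤ)] (ModularGroup.T ^ (h : ℤ))
        = (f : ℍ → ℂ) ∣[(2 : ℤ)] δ := by
      calc _ = ((f : ℍ → ℂ) ∣[(2 : ℤ)] (δ * ModularGroup.T ^ (h : ℤ) * δ⁻¹)) ∣[(2 : ℤ)] δ := by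
            rw [← SlashAction.slash_mul, ← SlashAction.slash_mul, inv_mul_cancel_right]
        _ = _ := by rw [hinv]
    simpa using slash_periodic_aux hper
  · exact (CuspFormClass.holo f).slash 2 _
  · exact CuspFormClass.zero_at_infty_slash f δ

theorem exists_cusp_primitive (f : CuspForm (Gamma0 N) 2) (δ : SL(2, ℤ)) :
    ∃ G : ℍ → ℂ, (∀ τ : ℍ, HasDerivAt (G ∘ ofComplex) (((f : ℍ → ℂ) ∣[(2 : ℤ)] δ) τ) (τ : ℂ)) ∧
      Tendsto G atImInfty (𝓝 0) ∧ ∀ τ : ℍ, G ((N : ℝ) +ᵥ τ) = G τ :=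
  exists_periodic_chart_primitive f δ (Nat.pos_of_ne_zero (NeZero.ne N))
    (by simpa using conj_T_zpow_mem_Gamma0 N δ 1)

/-- Every weight two cusp form on `Γ₀(N)` has an equivariant primitive. -/
theorem exists_hasEquivariantPrimitive (f : CuspForm (Gamma0 N) 2) :
    ∃ F : ℍ → ℂ, HasEquivariantPrimitive N f F := by
  obtain ⟨F, hF, hF0, -⟩ := exists_cusp_primitive f 1
  simp only [SlashAction.slash_one] at hF
  refine ⟨F, hF, hF0, fun γ ↦ ⟨F ((γ : SL(2, ℤ)) • UpperHalfPlane.I) - F UpperHalfPlane.I, ?_⟩,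
    fun δ ↦ ?_⟩
  · intro z
    refine sub_const_of_hasDerivAt (A := fun w ↦ F ((γ : SL(2, ℤ)) • w)) (B := F) (f := f)
      (fun τ ↦ ?_) hF z UpperHalfPlane.I
    have h := hasDerivAt_comp_smul hF (γ : SL(2, ℤ)) τ
    have hinv : (f : ℍ → ℂ) ∣[(2 : ℤ)] (γ : SL(2, ℤ)) = f :=
      SlashInvariantFormClass.slash_action_eq f _ (Subgroup.mem_map_of_mem _ γ.2)
    rwa [hinv] at h
  · obtain ⟨G, hG, hG0, -⟩ := exists_cusp_primitive f δ
    exact exists_tendsto_comp_smul hF δ hG hG0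

omit [NeZero N] in
/-- The equivariant primitive is unique. -/
theorem hasEquivariantPrimitive_unique {f : CuspForm (Gamma0 N) 2} {F F' : ℍ → ℂ}
    (h : HasEquivariantPrimitive N f F) (h' : HasEquivariantPrimitive N f F') : F = F' :=
  eq_of_hasDerivAt_of_tendsto h.1 h'.1 h.2.1 h'.2.1

omit [NeZero N] in
/-- The period map evaluated with any equivariant primitive. -/
theorem periodMap_eq {f : CuspForm (Gamma0 N) 2} {F : ℍ → ℂ}
    (h : HasEquivariantPrimitive N f F) : periodMap N f = h.2.2.1.periodHom := by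
  obtain ⟨F₀, h₀, e⟩ := periodMap_def N f h
  obtain rfl := hasEquivariantPrimitive_unique h h₀
  exact e

omit [NeZero N] in
theorem periodMap_apply_eq {f : CuspForm (Gamma0 N) 2} {F : ℍ → ℂ}
    (h : HasEquivariantPrimitive N f F) (γ : Gamma0 N) (z : ℍ) :
    periodMap N f (Additive.ofMul γ) = F ((γ : SL(2, ℤ)) • z) - F z := by
  rw [periodMap_eq h]
  exact ((h.2.2.1).sub_eq_period γ z).symm

omit [NeZero N] in
theorem hasEquivariantPrimitive_add {f g : CuspForm (Gamma0 N) 2} {F G : ℍ → ℂ}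
    (hF : HasEquivariantPrimitive N f F) (hG : HasEquivariantPrimitive N g G) :
    HasEquivariantPrimitive N (f + g) (F + G) := by
  refine ⟨fun τ ↦ ?_, ?_, fun γ ↦ ?_, fun δ ↦ ?_⟩
  · simpa [Function.comp_def] using! (hF.1 τ).add (hG.1 τ)
  · have := hF.2.1.add hG.2.1
    rwa [add_zero] at this
  · obtain ⟨a, ha⟩ := hF.2.2.1 γ
    obtain ⟨b, hb⟩ := hG.2.2.1 γ
    exact ⟨a + b, fun z ↦ by simp only [Pi.add_apply]; linear_combination ha z + hb z⟩
  · obtain ⟨a, ha⟩ := hF.2.2.2 δ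
    obtain ⟨b, hb⟩ := hG.2.2.2 δ
    exact ⟨a + b, ha.add hb⟩

omit [NeZero N] in
theorem hasEquivariantPrimitive_smul (c : ℂ) {f : CuspForm (Gamma0 N) 2} {F : ℍ → ℂ}
    (hF : HasEquivariantPrimitive N f F) :
    HasEquivariantPrimitive N (c • f) (c • F) := by
  refine ⟨fun τ ↦ ?_, ?_, fun γ ↦ ?_, fun δ ↦ ?_⟩
  · simpa [Function.comp_def] using! (hF.1 τ).const_mul c
  · have := hF.2.1.const_smul c
    rwa [smul_zero] at this
  · obtain ⟨a, ha⟩ := hF.2.2.1 γ
    exact ⟨c * a, fun z ↦ by simp only [Pi.smul_apply, smul_eq_mul]; linear_combination c * ha z⟩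
  · obtain ⟨a, ha⟩ := hF.2.2.2 δ
    exact ⟨c • a, ha.const_smul c⟩

/-- The period map as a linear map. -/
def periodLin (N : ℕ) [NeZero N] :
    CuspForm (Gamma0 N) 2 →ₗ[ℂ] (Additive (Gamma0 N) →+ ℂ) where
  toFun := periodMap N
  map_add' f g := by
    obtain ⟨F, hF⟩ := exists_hasEquivariantPrimitive f
    obtain ⟨G, hG⟩ := exists_hasEquivariantPrimitive g
    refine AddMonoidHom.ext fun γ ↦ ?_
    obtain ⟨γ, rfl⟩ := Additive.ofMul.surjective γ
    rw [AddMonoidHom.add_apply, periodMap_apply_eq (hasEquivariantPrimitive_add hF hG) γ I,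
      periodMap_apply_eq hF γ I, periodMap_apply_eq hG γ I]
    simp only [Pi.add_apply]
    ring
  map_smul' c f := by
    obtain ⟨F, hF⟩ := exists_hasEquivariantPrimitive f
    refine AddMonoidHom.ext fun γ ↦ ?_
    obtain ⟨γ, rfl⟩ := Additive.ofMul.surjective γ
    simp only [RingHom.id_apply, AddMonoidHom.smul_apply]
    rw [periodMap_apply_eq (hasEquivariantPrimitive_smul c hF) γ I, periodMap_apply_eq hF γ I]
    simp [mul_sub]

theorem existsPeriodMapLinear (N : ℕ) [NeZero N] : ExistsPeriodMapLinear N :=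
  ⟨periodLin N, fun _ ↦ rfl⟩

/-- In every cusp chart the equivariant primitive is `N`-periodic. -/
theorem primitive_periodic {f : CuspForm (Gamma0 N) 2} {F : ℍ → ℂ}
    (h : HasEquivariantPrimitive N f F) (δ : SL(2, ℤ)) (w : ℍ) :
    F (δ • ((N : ℝ) +ᵥ w)) = F (δ • w) := by
  obtain ⟨G, hG, -, hper⟩ := exists_cusp_primitive f δ
  exact comp_smul_periodic_of_chart h.1 δ hG hper w

end Fermat.Agent.Periods
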