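import Mathlib
import Fermat.Prelude.Def_ModularCurve_PeriodMap
import Fermat.Prelude.Def_ModularCurve_PeriodHomPair

/-!
# The transfer operator of a finite double coset family on `Hom(Γ, A)`

For a finite family `α i ∈ GL(2, ℝ)` permuted, up to left multiplication by `Γ`, by right
multiplication with `Γ`, we define the operator `φ ↦ (γ ↦ ∑ φ (γ_i))` and show that it preserves
homomorphisms killing the elliptic and parabolic elements, for any coefficient group, and commutes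
with conjugation by `J` when the family does (`transfer_comp_conj`).
-/

set_option autoImplicit false

noncomputable section

namespace Fermat.Agent.Periods

open ModularCurve.Period
open scoped MatrixGroups

/-- `γ ↦ γ` as an element of `GL(2, ℝ)`. -/
abbrev toGLR (γ : SL(2, ℤ)) : GL (Fin 2) ℝ := Matrix.SpecialLinearGroup.mapGL ℝ γ

theorem toGLR_injective : Function.Injective toGLR :=
  Matrix.SpecialLinearGroup.toGL_injective.comp
    (Matrix.SpecialLinearGroup.map_intCast_injective)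

theorem J_mul_eq (γ : SL(2, ℤ)) :
    UpperHalfPlane.J * Matrix.SpecialLinearGroup.mapGL ℝ γ
      = Matrix.SpecialLinearGroup.mapGL ℝ (jConjSL γ) * UpperHalfPlane.J := by
  ext i j
  fin_cases i <;> fin_cases j <;>
    simp [Matrix.mul_apply, Fin.sum_univ_two, jConjMat]

theorem J_conj_toGLR (γ : SL(2, ℤ)) :
    UpperHalfPlane.J * toGLR γ * UpperHalfPlane.J = toGLR (jConjSL γ) := by
  simp only [toGLR, J_mul_eq, mul_assoc, ← sq, UpperHalfPlane.J_sq, mul_one]

/-- A finite family of matrices representing a double coset `Γ α Γ` as left `Γ`-cosets. -/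
structure IsCosetFamily {ι : Type*} (Γ : Subgroup SL(2, ℤ)) (α : ι → GL (Fin 2) ℝ) : Prop where
  exists_perm : ∀ γ : Γ, ∃ (σ : Equiv.Perm ι) (g : ι → Γ),
    ∀ i, α i * toGLR γ = toGLR (g i) * α (σ i)
  eq_of_mem : ∀ (i j : ι) (g : Γ), α i = toGLR g * α j → i = j

namespace IsCosetFamily

variable {ι : Type*} {Γ : Subgroup SL(2, ℤ)} {α : ι → GL (Fin 2) ℝ} (h : IsCosetFamily Γ α)

/-- The permutation attached to `γ`. -/
def perm (γ : Γ) : Equiv.Perm ι := (h.exists_perm γ).choose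

/-- The element of `Γ` attached to `γ` and `i`. -/
def cocycle (γ : Γ) : ι → Γ := (h.exists_perm γ).choose_spec.choose

theorem mul_eq (γ : Γ) (i : ι) :
    α i * toGLR γ = toGLR (h.cocycle γ i) * α (h.perm γ i) :=
  (h.exists_perm γ).choose_spec.choose_spec i

theorem eq_of_mul_eq {γ : Γ} {i j : ι} {g : Γ} (e : α i * toGLR γ = toGLR g * α j) :
    j = h.perm γ i ∧ g = h.cocycle γ i := by
  have e' := (h.mul_eq γ i).symm.trans e
  have hj : h.perm γ i = j := by
    refine h.eq_of_mem _ _ ((h.cocycle γ i)⁻¹ * g) ?_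
    simp only [toGLR, Subgroup.coe_mul, Subgroup.coe_inv, map_mul, map_inv] at e' ⊢
    rw [mul_assoc, ← e', inv_mul_cancel_left]
  refine ⟨hj.symm, ?_⟩
  rw [hj] at e'
  exact (Subtype.ext (toGLR_injective (mul_right_cancel e'))).symm

theorem perm_mul_apply (γ δ : Γ) (i : ι) :
    h.perm (γ * δ) i = h.perm δ (h.perm γ i) ∧
      h.cocycle (γ * δ) i = h.cocycle γ i * h.cocycle δ (h.perm γ i) := by
  have e : α i * toGLR (γ * δ : Γ)
      = toGLR (h.cocycle γ i * h.cocycle δ (h.perm γ i) : Γ) * α (h.perm δ (h.perm γ i)) := by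
    simp only [toGLR, Subgroup.coe_mul, map_mul]
    rw [← mul_assoc, h.mul_eq γ i, mul_assoc, h.mul_eq δ, ← mul_assoc]
  obtain ⟨e1, e2⟩ := h.eq_of_mul_eq e
  exact ⟨e1.symm, e2.symm⟩

variable [Fintype ι] (R : Type*) [Semiring R] (A : Type*) [AddCommGroup A] [Module R A]

/-- The transfer operator of a coset family. -/
def transfer : (Additive Γ →+ A) →ₗ[R] (Additive Γ →+ A) where
  toFun φ := AddMonoidHom.mk' (fun γ ↦ ∑ i, φ (Additive.ofMul (h.cocycle γ.toMul i)))
    (fun γ δ ↦ by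
      simp only [toMul_add, (h.perm_mul_apply _ _ _).2, ofMul_mul, map_add,
        Finset.sum_add_distrib]
      congr 1
      exact Equiv.sum_comp (h.perm γ.toMul) (fun i ↦ φ (Additive.ofMul (h.cocycle δ.toMul i))))
  map_add' φ ψ := by
    ext γ
    simp [Finset.sum_add_distrib]
  map_smul' c φ := by
    ext γ
    simp [Finset.smul_sum]

variable {R A}

theorem transfer_apply (φ : Additive Γ →+ A) (γ : Γ) :
    h.transfer R A φ (Additive.ofMul γ) = ∑ i, φ (Additive.ofMul (h.cocycle γ i)) := rfl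

/-- The transfer can be computed with any choice of witnesses. -/
theorem transfer_apply_of_eq (φ : Additive Γ →+ A) (γ : Γ) (σ : ι → ι) (g : ι → Γ)
    (e : ∀ i, α i * toGLR γ = toGLR (g i) * α (σ i)) :
    h.transfer R A φ (Additive.ofMul γ) = ∑ i, φ (Additive.ofMul (g i)) := by
  rw [transfer_apply]
  exact Finset.sum_congr rfl fun i _ ↦ by rw [(h.eq_of_mul_eq (e i)).2]

/-- The transfer is natural in the coefficient group. -/
theorem transfer_comp {R' : Type*} [Semiring R'] {B : Type*} [AddCommGroup B] [Module R' B]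
    (u : A →+ B) (φ : Additive Γ →+ A) :
    h.transfer R' B (u.comp φ) = u.comp (h.transfer R A φ) := by
  refine AddMonoidHom.ext fun γ ↦ ?_
  obtain ⟨γ, rfl⟩ := Additive.ofMul.surjective γ
  simp [transfer_apply]

/-- If the family is stable under conjugation by `J`, its transfer commutes with precomposition
by the automorphism of `Γ` induced by that conjugation. -/
theorem transfer_comp_conj
    (hα : ∀ i, ∃ (k : ι) (β : Γ),
      UpperHalfPlane.J * α i * UpperHalfPlane.J = toGLR β * α k)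
    (j : Γ →* Γ) (hj : ∀ γ : Γ, (j γ : SL(2, ℤ)) = jConjSL γ) (φ : Additive Γ →+ A) :
    (h.transfer R A φ).comp (MonoidHom.toAdditive j)
      = h.transfer R A (φ.comp (MonoidHom.toAdditive j)) := by
  choose π β hπ using hα
  have hJJ : UpperHalfPlane.J * UpperHalfPlane.J = 1 := by rw [← sq, UpperHalfPlane.J_sq]
  have hconj : ∀ x y : GL (Fin 2) ℝ, UpperHalfPlane.J * (x * y) * UpperHalfPlane.J
      = (UpperHalfPlane.J * x * UpperHalfPlane.J)
        * (UpperHalfPlane.J * y * UpperHalfPlane.J) := by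
    intro x y
    simp only [mul_assoc]
    rw [← mul_assoc UpperHalfPlane.J UpperHalfPlane.J, hJJ, one_mul]
  have hinv : ∀ i, j (β i) * β (π i) = 1 ∧ π (π i) = i := by
    intro i
    have e : α i = toGLR (j (β i) * β (π i) : Γ) * α (π (π i)) := by
      calc α i = UpperHalfPlane.J * (UpperHalfPlane.J * α i * UpperHalfPlane.J)
            * UpperHalfPlane.J := by
            simp only [← mul_assoc, hJJ, one_mul]; rw [mul_assoc, hJJ, mul_one]
        _ = _ := by
            rw [hπ i, hconj, hπ (π i), J_conj_toGLR, ← mul_assoc]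
            simp [toGLR, hj]
    have h1 : (i : ι) = π (π i) := h.eq_of_mem _ _ _ e
    refine ⟨?_, h1.symm⟩
    rw [← h1] at e
    have := mul_eq_right.mp e.symm
    exact Subtype.ext (toGLR_injective (by simpa [toGLR] using this))
  let πe : Equiv.Perm ι := ⟨π, π, fun i ↦ (hinv i).2, fun i ↦ (hinv i).2⟩
  refine AddMonoidHom.ext fun γ ↦ ?_
  obtain ⟨γ, rfl⟩ := Additive.ofMul.surjective γ
  have e : ∀ i, α i * toGLR (j γ)
      = toGLR (j (β i * h.cocycle γ (π i)) * β (h.perm γ (π i)) : Γ)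
        * α (π (h.perm γ (π i))) := by
    intro i
    have hi : α i = UpperHalfPlane.J * (toGLR (β i) * α (π i)) * UpperHalfPlane.J := by
      rw [← hπ i]
      simp only [← mul_assoc, hJJ, one_mul]; rw [mul_assoc, hJJ, mul_one]
    rw [hj, ← J_conj_toGLR, hi, ← hconj,
      mul_assoc (toGLR (β i : SL(2, ℤ))) (α (π i)) (toGLR (γ : SL(2, ℤ))), h.mul_eq γ (π i),
      ← mul_assoc (toGLR (β i : SL(2, ℤ))), hconj, hπ, ← mul_assoc]
    simp only [toGLR, ← map_mul, Subgroup.coe_mul, hj]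
    rw [J_conj_toGLR, ← map_mul]
  show h.transfer R A φ (Additive.ofMul (j γ)) = _
  rw [h.transfer_apply_of_eq φ (j γ) _ _ e, IsCosetFamily.transfer_apply]
  simp only [AddMonoidHom.comp_apply, MonoidHom.toAdditive_apply_apply, map_mul, ofMul_mul, map_add,
    Finset.sum_add_distrib, toMul_ofMul]
  have hz : ∀ i, φ (Additive.ofMul (j (β i))) = -φ (Additive.ofMul (β (π i))) := by
    intro i
    rw [eq_neg_iff_add_eq_zero, ← map_add, ← ofMul_mul, (hinv i).1]
    simp
  simp only [hz, Finset.sum_neg_distrib]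
  have s1 : ∑ i, φ (Additive.ofMul (β (π i))) = ∑ i, φ (Additive.ofMul (β i)) :=
    Equiv.sum_comp πe (fun i ↦ φ (Additive.ofMul (β i)))
  have s2 : ∑ i, φ (Additive.ofMul (β (h.perm γ (π i)))) = ∑ i, φ (Additive.ofMul (β i)) :=
    Equiv.sum_comp (πe.trans (h.perm γ)) (fun i ↦ φ (Additive.ofMul (β i)))
  have s3 : ∑ i, φ (Additive.ofMul (j (h.cocycle γ (π i))))
      = ∑ i, φ (Additive.ofMul (j (h.cocycle γ i))) :=
    Equiv.sum_comp πe (fun i ↦ φ (Additive.ofMul (j (h.cocycle γ i))))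
  rw [s1, s2, s3]
  abel

omit [Fintype ι] in
theorem exists_pow_mul_eq (φ : Additive Γ →+ A) (γ : Γ) (i : ι) (n : ℕ) :
    ∃ P : Γ, α i * toGLR (γ ^ n : Γ) = toGLR P * α ((h.perm γ)^[n] i) ∧
      φ (Additive.ofMul P) =
        ∑ k ∈ Finset.range n, φ (Additive.ofMul (h.cocycle γ ((h.perm γ)^[k] i))) := by
  induction n with
  | zero => exact ⟨1, by simp [toGLR], by simp⟩
  | succ n ih =>
    obtain ⟨P, hP, hφP⟩ := ih
    refine ⟨P * h.cocycle γ ((h.perm γ)^[n] i), ?_, ?_⟩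
    · rw [Function.iterate_succ_apply', pow_succ]
      simp only [toGLR, Subgroup.coe_mul, map_mul] at hP ⊢
      rw [← mul_assoc, hP, mul_assoc, h.mul_eq γ, ← mul_assoc]
    · rw [ofMul_mul, map_add, hφP, Finset.sum_range_succ]

theorem trace_eq_of_conj {a : GL (Fin 2) ℝ} {x y : SL(2, ℤ)}
    (e : a * toGLR x = toGLR y * a) :
    (x : Matrix (Fin 2) (Fin 2) ℤ).trace = (y : Matrix (Fin 2) (Fin 2) ℤ).trace := by
  have e' : toGLR y = a * toGLR x * a⁻¹ := eq_mul_inv_of_mul_eq e.symm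
  have ht : ∀ z : SL(2, ℤ), (toGLR z).val.trace = ((z : Matrix (Fin 2) (Fin 2) ℤ).trace : ℝ) := by
    intro z
    simp [toGLR, Matrix.trace_fin_two]
  have := congrArg (fun m : GL (Fin 2) ℝ ↦ m.val.trace) e'
  rw [ht, Units.val_mul, Matrix.trace_mul_comm, ← Units.val_mul, inv_mul_cancel_left, ht] at this
  exact_mod_cast this.symm

/-- If `φ` kills every element of `Γ` conjugate under the family to a power of `γ`, then the
transfer kills `γ`. -/
theorem transfer_eq_zero_of_conj (φ : Additive Γ →+ A) (γ : Γ)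
    (hφ : ∀ (g : Γ) (a : GL (Fin 2) ℝ) (n : ℕ),
      a * toGLR (γ ^ n : Γ) = toGLR g * a → φ (Additive.ofMul g) = 0) :
    h.transfer R A φ (Additive.ofMul γ) = 0 := by
  classical
  rw [transfer_apply]
  set σ := h.perm γ with hσ
  rw [← Finset.sum_fiberwise Finset.univ (fun i ↦ (Quotient.mk (Equiv.Perm.SameCycle.setoid σ) i))]
  refine Finset.sum_eq_zero fun q _ ↦ ?_
  set i := q.out with hi
  set r := Function.minimalPeriod σ i with hr
  have hr0 : 0 < r :=
    Function.minimalPeriod_pos_iff_mem_periodicPts.mpr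
      ⟨orderOf σ, orderOf_pos σ, by
        show σ^[orderOf σ] i = i
        rw [← Equiv.Perm.coe_pow, pow_orderOf_eq_one, Equiv.Perm.one_apply]⟩
  have hfib : (Finset.univ.filter fun x ↦ Quotient.mk (Equiv.Perm.SameCycle.setoid σ) x = q)
      = (Finset.range r).image fun k ↦ σ^[k] i := by
    ext x
    simp only [Finset.mem_filter, Finset.mem_univ, true_and, Finset.mem_image, Finset.mem_range]
    constructor
    · intro hx
      have hx' : Equiv.Perm.SameCycle σ i x :=
        Quotient.exact ((Quotient.out_eq q).trans hx.symm)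
      obtain ⟨k, -, hk⟩ := hx'.exists_pow_eq'
      refine ⟨k % r, Nat.mod_lt _ hr0, ?_⟩
      rw [hr, Function.iterate_mod_minimalPeriod_eq, ← Equiv.Perm.coe_pow, hk]
    · rintro ⟨k, -, rfl⟩
      rw [← Quotient.out_eq q]
      refine Quotient.sound (show Equiv.Perm.SameCycle σ (σ^[k] i) i from ?_)
      rw [← Equiv.Perm.coe_pow]
      exact Equiv.Perm.SameCycle.symm ⟨k, by simp⟩
  rw [hfib, Finset.sum_image (fun a ha b hb hab ↦
    Function.iterate_injOn_Iio_minimalPeriod (Finset.mem_range.mp ha) (Finset.mem_range.mp hb) hab)]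
  obtain ⟨Q, hQ, hφQ⟩ := h.exists_pow_mul_eq φ γ i r
  rw [← hσ, hr, Function.iterate_minimalPeriod, ← hr] at hQ
  rw [← hσ] at hφQ
  rw [← hφQ]
  exact hφ Q _ r hQ

/-- If `φ` kills a conjugation-stable, power-stable set of traces, so does its transfer. -/
theorem transfer_eq_zero {P : ℤ → Prop} (φ : Additive Γ →+ A) (γ : Γ)
    (hpow : ∀ n : ℕ, P (((γ ^ n : Γ) : SL(2, ℤ)) : Matrix (Fin 2) (Fin 2) ℤ).trace)
    (hφ : ∀ g : Γ, P ((g : SL(2, ℤ)) : Matrix (Fin 2) (Fin 2) ℤ).trace →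
      φ (Additive.ofMul g) = 0) :
    h.transfer R A φ (Additive.ofMul γ) = 0 :=
  h.transfer_eq_zero_of_conj φ γ fun g _ n e ↦ hφ g (by rw [← trace_eq_of_conj e]; exact hpow n)

end IsCosetFamily

/-- Cayley–Hamilton recurrence for the traces of powers in `SL(2, ℤ)`. -/
theorem trace_pow_invariant (γ : SL(2, ℤ)) (n : ℕ) :
    ((γ ^ (n + 1) : SL(2, ℤ)) : Matrix (Fin 2) (Fin 2) ℤ).trace ^ 2
      - (γ : Matrix (Fin 2) (Fin 2) ℤ).trace
          * ((γ ^ n : SL(2, ℤ)) : Matrix (Fin 2) (Fin 2) ℤ).trace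
          * ((γ ^ (n + 1) : SL(2, ℤ)) : Matrix (Fin 2) (Fin 2) ℤ).trace
      + ((γ ^ n : SL(2, ℤ)) : Matrix (Fin 2) (Fin 2) ℤ).trace ^ 2
      = 4 - (γ : Matrix (Fin 2) (Fin 2) ℤ).trace ^ 2 := by
  induction n with
  | zero => simp; ring
  | succ n ih =>
    have hrec : ((γ ^ (n + 1 + 1) : SL(2, ℤ)) : Matrix (Fin 2) (Fin 2) ℤ).trace
        = (γ : Matrix (Fin 2) (Fin 2) ℤ).trace
            * ((γ ^ (n + 1) : SL(2, ℤ)) : Matrix (Fin 2) (Fin 2) ℤ).trace
          - ((γ ^ n : SL(2, ℤ)) : Matrix (Fin 2) (Fin 2) ℤ).trace := by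
      have hdet : γ 0 0 * γ 1 1 - γ 0 1 * γ 1 0 = 1 := by
        have := γ.2
        rwa [Matrix.det_fin_two] at this
      rw [pow_succ γ (n + 1), pow_succ γ n]
      simp [Matrix.trace_fin_two, Matrix.mul_apply, Fin.sum_univ_two]
      linear_combination
        (-((γ ^ n : SL(2, ℤ)) 0 0) - ((γ ^ n : SL(2, ℤ)) 1 1)) * hdet
    rw [hrec]
    linear_combination ih

theorem trace_pow_sq_eq_four (γ : SL(2, ℤ))
    (h : (γ : Matrix (Fin 2) (Fin 2) ℤ).trace ^ 2 = 4) (n : ℕ) :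
    ((γ ^ n : SL(2, ℤ)) : Matrix (Fin 2) (Fin 2) ℤ).trace ^ 2 = 4 := by
  induction n with
  | zero => simp
  | succ n ih =>
    have hi := trace_pow_invariant γ n
    have h0 : (2 * ((γ ^ (n + 1) : SL(2, ℤ)) : Matrix (Fin 2) (Fin 2) ℤ).trace
        - (γ : Matrix (Fin 2) (Fin 2) ℤ).trace
          * ((γ ^ n : SL(2, ℤ)) : Matrix (Fin 2) (Fin 2) ℤ).trace) ^ 2 = 0 := by
      linear_combination 4 * hi +
        (((γ ^ n : SL(2, ℤ)) : Matrix (Fin 2) (Fin 2) ℤ).trace ^ 2 - 4) * h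
    have h1 := pow_eq_zero_iff (n := 2) two_ne_zero |>.mp h0
    set a := ((γ ^ n : SL(2, ℤ)) : Matrix (Fin 2) (Fin 2) ℤ).trace
    set b := ((γ ^ (n + 1) : SL(2, ℤ)) : Matrix (Fin 2) (Fin 2) ℤ).trace
    set t := (γ : Matrix (Fin 2) (Fin 2) ℤ).trace
    have : 4 * b ^ 2 = 4 * 4 := by linear_combination (2 * b + t * a) * h1 + a ^ 2 * h + 4 * ih
    linarith

theorem trace_pow_sq_le_four (γ : SL(2, ℤ))
    (h : (γ : Matrix (Fin 2) (Fin 2) ℤ).trace ^ 2 ≤ 4) (n : ℕ) :
    ((γ ^ n : SL(2, ℤ)) : Matrix (Fin 2) (Fin 2) ℤ).trace ^ 2 ≤ 4 := by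
  rcases h.lt_or_eq with h | h
  · have hi := trace_pow_invariant γ n
    set a := ((γ ^ n : SL(2, ℤ)) : Matrix (Fin 2) (Fin 2) ℤ).trace
    set b := ((γ ^ (n + 1) : SL(2, ℤ)) : Matrix (Fin 2) (Fin 2) ℤ).trace
    set t := (γ : Matrix (Fin 2) (Fin 2) ℤ).trace
    have h1 : (4 - t ^ 2) * a ^ 2 ≤ 4 * (4 - t ^ 2) := by nlinarith [sq_nonneg (2 * b - t * a)]
    nlinarith
  · exact (trace_pow_sq_eq_four γ h n).le

/-- Homomorphisms killing all elements of squared trace at most `4` (elliptic and parabolic). -/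
def IsEllParHom {Γ : Subgroup SL(2, ℤ)} {A : Type*} [AddCommGroup A] (φ : Additive Γ →+ A) :
    Prop :=
  ∀ γ : Γ, ((γ : SL(2, ℤ)) : Matrix (Fin 2) (Fin 2) ℤ).trace ^ 2 ≤ 4 → φ (Additive.ofMul γ) = 0

namespace IsCosetFamily

variable {ι : Type*} [Fintype ι] {Γ : Subgroup SL(2, ℤ)} {α : ι → GL (Fin 2) ℝ}
  (h : IsCosetFamily Γ α) {R : Type*} [Semiring R] {A : Type*} [AddCommGroup A] [Module R A]

theorem transfer_isEllParHom {φ : Additive Γ →+ A} (hφ : IsEllParHom φ) :
    IsEllParHom (h.transfer R A φ) := by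
  intro γ hγ
  refine h.transfer_eq_zero (P := fun t ↦ t ^ 2 ≤ 4) φ γ (fun n ↦ ?_) hφ
  simpa using trace_pow_sq_le_four (γ : SL(2, ℤ)) hγ n

end IsCosetFamily

end Fermat.Agent.Periods
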