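import Mathlib
import Fermat.Prelude.Def_ModularCurve_PeriodHomPair
import Fermat.Agent.Periods.Primitive
import Fermat.Agent.Periods.InvariantMax
import Fermat.Agent.Periods.Transfer

/-!
# Injectivity of the Eichler–Shimura period pairing

If `A(τ) + B(-\bar τ)` is invariant for equivariant primitives `A`, `B`, the cusp forms vanish;
hence `periodHomPair` is injective.
-/

set_option autoImplicit false

noncomputable section

namespace Fermat.Agent.Periods

open UpperHalfPlane CongruenceSubgroup Filter Topology ModularCurve ModularCurve.Period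
open scoped MatrixGroups ModularForm Real Manifold ComplexConjugate

theorem J_smul_SL_smul (γ : SL(2, ℤ)) (w : ℍ) :
    UpperHalfPlane.J • (γ • w) = jConjSL γ • (UpperHalfPlane.J • w) := by
  show UpperHalfPlane.J • (Matrix.SpecialLinearGroup.mapGL ℝ γ • w)
    = Matrix.SpecialLinearGroup.mapGL ℝ (jConjSL γ) • (UpperHalfPlane.J • w)
  rw [← mul_smul, ← mul_smul, J_mul_eq]

theorem J_smul_vadd (t : ℝ) (w : ℍ) :
    UpperHalfPlane.J • (t +ᵥ w) = (-t) +ᵥ (UpperHalfPlane.J • w) := by
  apply UpperHalfPlane.ext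
  simp only [coe_J_smul, coe_vadd, map_add, Complex.conj_ofReal, Complex.ofReal_neg]
  ring

theorem tendsto_J_smul_atImInfty :
    Tendsto (fun w : ℍ ↦ UpperHalfPlane.J • w) atImInfty atImInfty :=
  tendsto_smul_atImInfty (by simp [UpperHalfPlane.J])

theorem hasDerivAt_conj_reflect {B g : ℍ → ℂ}
    (hB : ∀ τ : ℍ, HasDerivAt (B ∘ ofComplex) (g τ) (τ : ℂ)) (τ : ℍ) :
    HasDerivAt ((fun w : ℍ ↦ conj (B (UpperHalfPlane.J • w))) ∘ ofComplex)
      (-conj (g (UpperHalfPlane.J • τ))) (τ : ℂ) := by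
  have h1 : HasDerivAt (fun z : ℂ ↦ (B ∘ ofComplex) (-z)) (-g (UpperHalfPlane.J • τ))
      (conj (τ : ℂ)) := by
    have := hB (UpperHalfPlane.J • τ)
    rw [coe_J_smul] at this
    simpa [Function.comp_def] using! this.comp (conj (τ : ℂ)) (hasDerivAt_neg (conj (τ : ℂ)))
  have h2 := h1.conj_conj
  rw [Complex.conj_conj, map_neg] at h2
  refine h2.congr_of_eventuallyEq ?_
  filter_upwards [isOpen_upperHalfPlaneSet.mem_nhds τ.im_pos] with z hz
  simp only [Function.comp_apply]
  congr 2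
  apply UpperHalfPlane.ext
  have hz' : 0 < (-conj z).im := by simpa using hz
  rw [coe_J_smul, ofComplex_apply_of_im_pos hz, ofComplex_apply_of_im_pos hz']

/-- If `A(τ) + B(-\bar τ)` is invariant under a finite index `Γ`, for primitives `A`, `B` which
are `h₀`-periodic and have a limit in every cusp chart, then their derivatives vanish. -/
theorem eq_zero_of_pair_invariant (Γ : Subgroup SL(2, ℤ)) [Γ.FiniteIndex] {h₀ : ℝ} (hh₀ : 0 < h₀)
    {a b A B : ℍ → ℂ} (hA : ∀ τ : ℍ, HasDerivAt (A ∘ ofComplex) (a τ) (τ : ℂ))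
    (hB : ∀ τ : ℍ, HasDerivAt (B ∘ ofComplex) (b τ) (τ : ℂ))
    (hAper : ∀ (δ : SL(2, ℤ)) (w : ℍ), A (δ • (h₀ +ᵥ w)) = A (δ • w))
    (hBper' : ∀ (δ : SL(2, ℤ)) (w : ℍ), B (δ • (h₀ +ᵥ w)) = B (δ • w))
    (hAlim : ∀ δ : SL(2, ℤ), ∃ L, Tendsto (fun w ↦ A (δ • w)) atImInfty (𝓝 L))
    (hBlim : ∀ δ : SL(2, ℤ), ∃ L, Tendsto (fun w ↦ B (δ • w)) atImInfty (𝓝 L))
    (hinv : ∀ γ ∈ Γ, ∀ w : ℍ,
      A (γ • w) + B (UpperHalfPlane.J • (γ • w)) = A w + B (UpperHalfPlane.J • w)) :
    a = 0 ∧ b = 0 := by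
  set Bt : ℍ → ℂ := fun w ↦ conj (B (UpperHalfPlane.J • w)) with hBt
  set bt : ℍ → ℂ := fun w ↦ -conj (b (UpperHalfPlane.J • w)) with hbt
  have hBtd : ∀ τ : ℍ, HasDerivAt (Bt ∘ ofComplex) (bt τ) (τ : ℂ) := hasDerivAt_conj_reflect hB
  have hBper : ∀ (δ : SL(2, ℤ)) (w : ℍ), Bt (δ • (h₀ +ᵥ w)) = Bt (δ • w) := by
    intro δ w
    simp only [hBt, J_smul_SL_smul, J_smul_vadd]
    congr 1
    have h := hBper' (jConjSL δ) ((-h₀) +ᵥ (UpperHalfPlane.J • w))
    rw [← add_vadd, add_neg_cancel, zero_vadd] at h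
    exact h.symm
  have key : ∀ (c d : ℂ), (∀ γ ∈ Γ, ∀ w : ℍ,
      (c * A (γ • w) + d * Bt (γ • w)).re = (c * A w + d * Bt w).re) →
      ∀ τ : ℍ, c * a τ + d * bt τ = 0 := by
    intro c d hre τ
    set φ : ℍ → ℂ := fun w ↦ Complex.exp (c * A w + d * Bt w) with hφ
    have hder : ∀ τ : ℍ,
        HasDerivAt (φ ∘ ofComplex) (φ τ * (c * a τ + d * bt τ)) (τ : ℂ) := by
      intro τ
      simpa [hφ, Function.comp_def] using!
        (((hA τ).const_mul c).add ((hBtd τ).const_mul d)).cexp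
    have hconst : ∀ z w : ℍ, φ z = φ w := by
      refine eq_of_norm_invariant_of_finiteIndex Γ hh₀ ?_ ?_ ?_ ?_
      · exact UpperHalfPlane.mdifferentiable_iff.mpr fun z hz ↦
          (hder ⟨z, hz⟩).differentiableAt.differentiableWithinAt
      · intro γ hγ z
        simp only [hφ, Complex.norm_exp, hre γ hγ z]
      · intro δ w
        simp only [hφ, hAper, hBper]
      · intro δ
        obtain ⟨L, hL⟩ := hAlim δ
        obtain ⟨L', hL'⟩ := hBlim (jConjSL δ)
        have hBt' : Tendsto (fun w : ℍ ↦ Bt (δ • w)) atImInfty (𝓝 (conj L')) := by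
          simp only [hBt, J_smul_SL_smul]
          exact (Complex.continuous_conj.tendsto _).comp (hL'.comp tendsto_J_smul_atImInfty)
        have h := (Complex.continuous_exp.tendsto _).comp
          ((hL.const_mul c).add (hBt'.const_mul d))
        exact h.isBigO_one ℝ
    have h0 : HasDerivAt (φ ∘ ofComplex) 0 (τ : ℂ) := by
      refine (hasDerivAt_const (τ : ℂ) (φ τ)).congr_of_eventuallyEq ?_
      filter_upwards with z
      exact hconst _ _
    have := (hder τ).unique h0
    exact (mul_eq_zero.mp this).resolve_left (by simp [hφ, Complex.exp_ne_zero])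
  have h1 := key 1 1 (fun γ hγ w ↦ by
    have := congrArg Complex.re (hinv γ hγ w)
    simpa [hBt] using this)
  have h2 := key Complex.I (-Complex.I) (fun γ hγ w ↦ by
    have := congrArg Complex.im (hinv γ hγ w)
    simp only [Complex.add_im] at this
    simp only [hBt, Complex.add_re, Complex.mul_re, Complex.neg_re, Complex.neg_im, Complex.I_re,
      Complex.I_im, Complex.conj_im, Complex.conj_re]
    linarith)
  have ha : ∀ τ : ℍ, a τ = 0 := by
    intro τ
    have e1 := h1 τ
    have e2 := h2 τ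
    have : Complex.I * (a τ - bt τ) = 0 := by linear_combination e2
    have e3 : a τ - bt τ = 0 := (mul_eq_zero.mp this).resolve_left Complex.I_ne_zero
    linear_combination (e1 + e3) / 2
  refine ⟨funext ha, funext fun τ ↦ ?_⟩
  have e1 := h1 (UpperHalfPlane.J • τ)
  rw [ha] at e1
  simp only [hbt, ← mul_smul, ← sq, J_sq, one_smul, mul_zero, zero_add, one_mul, neg_eq_zero,
    map_eq_zero] at e1
  simpa using e1

variable {N : ℕ} [NeZero N]

omit [NeZero N] in
theorem periodHomPair_apply' {pml : CuspForm (Gamma0 N) 2 →ₗ[ℂ] (Additive (Gamma0 N) →+ ℂ)}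
    (h : periodHomPair N = LinearMap.coprod
        ((LinearMap.id + charInvolution N ℂ ℂ) ∘ₗ pml)
        ((LinearMap.id - charInvolution N ℂ ℂ) ∘ₗ pml))
    (f g : CuspForm (Gamma0 N) 2) :
    periodHomPair N (f, g) = pml (f + g) + charInvolution N ℂ ℂ (pml (f - g)) := by
  rw [h]
  simp only [LinearMap.coprod_apply, LinearMap.coe_comp, Function.comp_apply,
    LinearMap.add_apply, LinearMap.sub_apply, LinearMap.id_coe, id_eq, map_add, map_sub]
  abel

theorem periodHomPair_apply (f g : CuspForm (Gamma0 N) 2) :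
    periodHomPair N (f, g)
      = periodMap N (f + g) + charInvolution N ℂ ℂ (periodMap N (f - g)) := by
  obtain ⟨pml, hpml, hdef⟩ := periodHomPair_def N (existsPeriodMapLinear N)
  rw [periodHomPair_apply' hdef, hpml, hpml]

/-- The pair period map is injective. -/
theorem periodHomPair_injective (N : ℕ) [NeZero N] : Function.Injective (periodHomPair N) := by
  rw [injective_iff_map_eq_zero]
  rintro ⟨f, g⟩ h
  rw [periodHomPair_apply] at h
  obtain ⟨A, hA⟩ := exists_hasEquivariantPrimitive (f + g)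
  obtain ⟨B, hB⟩ := exists_hasEquivariantPrimitive (f - g)
  have hz := eq_zero_of_pair_invariant (Gamma0 N) (h₀ := (N : ℝ))
    (by exact_mod_cast Nat.pos_of_ne_zero (NeZero.ne N)) hA.1 hB.1 (primitive_periodic hA)
    (primitive_periodic hB) hA.2.2.2 hB.2.2.2 (fun γ hγ w ↦ by
    have h' := DFunLike.congr_fun h (Additive.ofMul (⟨γ, hγ⟩ : Gamma0 N))
    rw [AddMonoidHom.add_apply, charInvolution_apply, periodMap_apply_eq hA _ w,
      periodMap_apply_eq hB _ (UpperHalfPlane.J • w), AddMonoidHom.zero_apply] at h'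
    simp only [jConjGamma0_coe, toMul_ofMul] at h'
    rw [← J_smul_SL_smul] at h'
    linear_combination h')
  have h1 : f + g = 0 := CuspForm.ext (congrFun hz.1)
  obtain rfl : f = g := sub_eq_zero.mp (CuspForm.ext (congrFun hz.2))
  have hf : f = 0 := by
    have : (2 : ℂ) • f = 0 := by rw [two_smul]; exact h1
    simpa using this
  simp [hf]

end Fermat.Agent.Periods
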