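import Mathlib
import Fermat.Prelude.Def_ModularCurve_PeriodHomPair
import Fermat.Agent.Periods.Primitive
import Fermat.Agent.Periods.Injective

/-!
# Periods vanish on parabolic elements

So the image of `periodHomPair` consists of parabolic homomorphisms (`range_periodHomPair_le`).
-/

set_option autoImplicit false

noncomputable section

namespace Fermat.Agent.Periods

open UpperHalfPlane CongruenceSubgroup Filter Topology ModularCurve ModularCurve.Period
open scoped MatrixGroups ModularForm Real Manifold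

/-- An element of `SL(2, ℤ)` with squared trace `4` is conjugate to an upper triangular one. -/
theorem exists_conj_lower_eq_zero (γ : SL(2, ℤ))
    (h : (γ : Matrix (Fin 2) (Fin 2) ℤ).trace ^ 2 = 4) :
    ∃ δ : SL(2, ℤ), (δ⁻¹ * γ * δ) 1 0 = 0 := by
  rcases eq_or_ne (γ 1 0) 0 with hc | hc
  · exact ⟨1, by simpa using hc⟩
  · have hdet : γ 0 0 * γ 1 1 - γ 0 1 * γ 1 0 = 1 := by
      have := γ.2
      rwa [Matrix.det_fin_two] at this
    rw [Matrix.trace_fin_two] at h
    have hgcd : 0 < Int.gcd (γ 0 0 - γ 1 1) (2 * γ 1 0) :=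
      Int.gcd_pos_of_ne_zero_right _ (mul_ne_zero two_ne_zero hc)
    obtain ⟨p, q, hpq, hp, hq⟩ := Int.exists_gcd_one hgcd
    obtain ⟨u, v, huv⟩ := (Int.isCoprime_iff_gcd_eq_one.mpr hpq : IsCoprime p q)
    refine ⟨⟨!![p, -v; q, u], by rw [Matrix.det_fin_two_of]; linear_combination huv⟩, ?_⟩
    set g : ℤ := (Int.gcd (γ 0 0 - γ 1 1) (2 * γ 1 0) : ℤ) with hg
    have hg0 : g ≠ 0 := by rw [hg]; exact_mod_cast hgcd.ne'
    have key : g ^ 2 * (γ 1 0 * p ^ 2 + (γ 1 1 - γ 0 0) * p * q - γ 0 1 * q ^ 2) = 0 := by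
      have : γ 1 0 * (p * g) ^ 2 + (γ 1 1 - γ 0 0) * (p * g) * (q * g)
          - γ 0 1 * (q * g) ^ 2 = 0 := by
        rw [← hp, ← hq]
        linear_combination (-(γ 1 0)) * h + 4 * γ 1 0 * hdet
      linear_combination this
    have hmain := (mul_eq_zero.mp key).resolve_left (pow_ne_zero 2 hg0)
    rw [Matrix.SpecialLinearGroup.coe_mul, Matrix.SpecialLinearGroup.coe_mul,
      Matrix.SpecialLinearGroup.SL2_inv_expl]
    simp [Matrix.mul_apply, Fin.sum_univ_two]
    linear_combination hmain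

/-- A constant period `F (γ z) - F z` of a parabolic `γ` vanishes if `F` has a limit in every
cusp chart. -/
theorem period_eq_zero_of_trace {F : ℍ → ℂ} {c : ℂ} {γ : SL(2, ℤ)}
    (hlim : ∀ δ : SL(2, ℤ), ∃ L, Tendsto (fun w ↦ F (δ • w)) atImInfty (𝓝 L))
    (hc : ∀ z : ℍ, c = F (γ • z) - F z)
    (h : (γ : Matrix (Fin 2) (Fin 2) ℤ).trace ^ 2 = 4) : c = 0 := by
  obtain ⟨δ, hδ⟩ := exists_conj_lower_eq_zero γ h
  obtain ⟨n, hn⟩ := ModularGroup.exists_eq_T_zpow_of_c_eq_zero hδ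
  obtain ⟨L, hL⟩ := hlim δ
  have hsmul : ∀ w : ℍ, γ • δ • w = δ • ((n : ℝ) +ᵥ w) := by
    intro w
    rw [← modular_T_zpow_smul, ← hn w, ← mul_smul, ← mul_smul]
    simp [mul_assoc]
  have htr : Tendsto (fun w : ℍ ↦ ((n : ℝ) +ᵥ w)) atImInfty atImInfty := by
    simp only [atImInfty, tendsto_comap_iff, Function.comp_def, vadd_im]
    exact tendsto_comap
  have h1 : Tendsto (fun w : ℍ ↦ F (δ • ((n : ℝ) +ᵥ w)) - F (δ • w)) atImInfty (𝓝 (L - L)) :=
    (hL.comp htr).sub hL
  have h2 : (fun w : ℍ ↦ F (δ • ((n : ℝ) +ᵥ w)) - F (δ • w)) = fun _ ↦ c := by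
    funext w
    rw [hc (δ • w), hsmul]
  rw [h2, sub_self] at h1
  exact tendsto_nhds_unique tendsto_const_nhds h1

variable {N : ℕ} [NeZero N]

/-- Periods are parabolic homomorphisms. -/
theorem periodMap_mem_parabolicHoms (f : CuspForm (Gamma0 N) 2) :
    periodMap N f ∈ parabolicHoms ℂ (Gamma0 N) ℂ := by
  obtain ⟨F, hF⟩ := exists_hasEquivariantPrimitive f
  exact fun γ hγ ↦ period_eq_zero_of_trace hF.2.2.2 (periodMap_apply_eq hF γ) hγ

/-- The range of the pair period map consists of parabolic homomorphisms. -/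
theorem range_periodHomPair_le (N : ℕ) [NeZero N] :
    LinearMap.range (periodHomPair N) ≤ parabolicHoms ℂ (Gamma0 N) ℂ := by
  rintro _ ⟨⟨f, g⟩, rfl⟩
  rw [periodHomPair_apply]
  exact add_mem (periodMap_mem_parabolicHoms _)
    (charInvolution_mem_parabolicHoms N ℂ ℂ (periodMap_mem_parabolicHoms _))

end Fermat.Agent.Periods
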