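import Mathlib
import Fermat.Prelude.Def_ModularCurve_PeriodHomPair
import Fermat.Prelude.Def_ModularForm_HeckeOperatorForms
import Fermat.Prelude.Sol.S_ModularForm_heckeT_slash_eq_self_of_mem_Gamma0
import Fermat.Agent.Periods.Primitive
import Fermat.Agent.Periods.Transfer

/-!
# Hecke operators on `Hom(Γ₀(N), A)` and equivariance of the period map
-/

set_option autoImplicit false

noncomputable section

namespace Fermat.Agent.Periods

open UpperHalfPlane CongruenceSubgroup Filter Topology ModularCurve ModularCurve.Period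
open ModularForm (heckeMatrix heckeDiagMatrix)
open scoped MatrixGroups ModularForm Real OnePoint

theorem hasDerivAt_comp_glSmul {F f : ℍ → ℂ}
    (hF : ∀ τ : ℍ, HasDerivAt (F ∘ ofComplex) (f τ) (τ : ℂ)) {g : GL (Fin 2) ℝ}
    (hg : 0 < g.det.val) (τ : ℍ) :
    HasDerivAt ((fun w : ℍ ↦ F (g • w)) ∘ ofComplex) ((f ∣[(2 : ℤ)] g) τ) (τ : ℂ) := by
  rw [Matrix.GeneralLinearGroup.val_det_apply] at hg
  have hsmul := (hasStrictDerivAt_smul hg τ).hasDerivAt
  have hFat : HasDerivAt (F ∘ ofComplex) (f (g • τ))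
      ((fun z : ℂ ↦ ((g • ofComplex z : ℍ) : ℂ)) τ) := by
    simpa [ofComplex_apply] using hF (g • τ)
  have h := hFat.comp (τ : ℂ) hsmul
  have hfun : ((fun w : ℍ ↦ F (g • w)) ∘ ofComplex)
      = (F ∘ ofComplex) ∘ fun z : ℂ ↦ ((g • ofComplex z : ℍ) : ℂ) := by
    funext z
    simp only [Function.comp_apply, ofComplex_apply]
  rw [hfun]
  refine h.congr_deriv ?_
  rw [ModularForm.slash_apply, Matrix.GeneralLinearGroup.val_det_apply, abs_of_pos hg,
    show UpperHalfPlane.σ g = ContinuousAlgEquiv.refl ℝ ℂ from if_pos (by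
      rwa [Matrix.GeneralLinearGroup.val_det_apply])]
  simp [div_eq_mul_inv, mul_assoc]

/-- The periods of a primitive of a sum of slashes are the transfer of the periods. -/
theorem period_eq_transfer {Γ : Subgroup SL(2, ℤ)} {ι : Type*} [Fintype ι] {α : ι → GL (Fin 2) ℝ}
    (h : IsCosetFamily Γ α) (hdet : ∀ i, 0 < (α i).det.val) {f g F H : ℍ → ℂ}
    (hF : ∀ τ : ℍ, HasDerivAt (F ∘ ofComplex) (f τ) (τ : ℂ))
    (hH : ∀ τ : ℍ, HasDerivAt (H ∘ ofComplex) (g τ) (τ : ℂ))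
    (hg : g = ∑ i, f ∣[(2 : ℤ)] α i) {φ ψ : Additive Γ →+ ℂ}
    (hφ : ∀ (γ : Γ) (z : ℍ), φ (Additive.ofMul γ) = F ((γ : SL(2, ℤ)) • z) - F z)
    (hψ : ∀ (γ : Γ) (z : ℍ), ψ (Additive.ofMul γ) = H ((γ : SL(2, ℤ)) • z) - H z) :
    ψ = h.transfer ℂ ℂ φ := by
  have hG : ∀ τ : ℍ, HasDerivAt ((fun w : ℍ ↦ ∑ i, F (α i • w)) ∘ ofComplex) (g τ) (τ : ℂ) := by
    intro τ
    rw [hg, Finset.sum_apply]
    have hsum := HasDerivAt.fun_sum (u := Finset.univ)
      (fun i _ ↦ hasDerivAt_comp_glSmul hF (hdet i) τ)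
    simpa [Function.comp_def] using! hsum
  refine AddMonoidHom.ext fun γ ↦ ?_
  obtain ⟨γ, rfl⟩ := Additive.ofMul.surjective γ
  rw [h.transfer_apply, hψ γ UpperHalfPlane.I]
  have hc := sub_const_of_hasDerivAt hH hG ((γ : SL(2, ℤ)) • UpperHalfPlane.I) UpperHalfPlane.I
  have hterm : ∀ i, φ (Additive.ofMul (h.cocycle γ i))
      = F (α i • (γ : SL(2, ℤ)) • UpperHalfPlane.I) - F (α (h.perm γ i) • UpperHalfPlane.I) := by
    intro i
    rw [hφ (h.cocycle γ i) (α (h.perm γ i) • UpperHalfPlane.I)]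
    congr 2
    show toGLR (h.cocycle γ i : SL(2, ℤ)) • α (h.perm γ i) • UpperHalfPlane.I
      = α i • (toGLR (γ : SL(2, ℤ)) • UpperHalfPlane.I)
    rw [← mul_smul, ← mul_smul, h.mul_eq]
  simp only [hterm, Finset.sum_sub_distrib,
    Equiv.sum_comp (h.perm γ) (fun i ↦ F (α i • UpperHalfPlane.I))]
  linear_combination hc

variable {N : ℕ} [NeZero N]

/-- The periods of a sum of slashes are given by the transfer of the periods. -/
theorem periodMap_eq_transfer {ι : Type*} [Fintype ι] {α : ι → GL (Fin 2) ℝ}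
    (h : IsCosetFamily (Gamma0 N) α) (hdet : ∀ i, 0 < (α i).det.val)
    (f g : CuspForm (Gamma0 N) 2) (hg : (g : ℍ → ℂ) = ∑ i, (f : ℍ → ℂ) ∣[(2 : ℤ)] α i) :
    periodMap N g = h.transfer ℂ ℂ (periodMap N f) := by
  obtain ⟨F, hF⟩ := exists_hasEquivariantPrimitive f
  obtain ⟨H, hH⟩ := exists_hasEquivariantPrimitive g
  exact period_eq_transfer h hdet hF.1 hH.1 hg (periodMap_apply_eq hF) (periodMap_apply_eq hH)

open P2MW.S_ModularForm_heckeT_slash_eq_self_of_mem_Gamma0.ModularForm.HeckeSlashInvariance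
  (heckeRep heckeRep_mul heckeMatrix_mul_of_dvd affinePerm redMatrix heckeT_eq_sum_onePoint
    heckeU_eq_sum_zmod)

theorem intCast_val_eq_of_eq {g : SL(2, ℤ)} {A B : GL (Fin 2) ℝ} (e : A = toGLR g * B)
    (i j : Fin 2) : A i j = (g i 0 : ℝ) * B 0 j + (g i 1 : ℝ) * B 1 j := by
  rw [e]
  simp [toGLR, Matrix.mul_apply, Fin.sum_univ_two]

theorem heckeMatrix_injective_mod {p : ℕ} [NeZero p] {g : SL(2, ℤ)} {x y : ZMod p}
    (e : heckeMatrix p x.val = toGLR g * heckeMatrix p y.val) : x = y := by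
  have e00 := intCast_val_eq_of_eq e 0 0
  have e01 := intCast_val_eq_of_eq e 0 1
  simp [ModularForm.val_heckeMatrix (NeZero.ne p), -ZMod.natCast_val] at e00 e01
  have h : ((x.val : ℤ) : ℝ) = ((g 0 0 * y.val + g 0 1 * p : ℤ) : ℝ) := by push_cast; linarith
  have h' : ((x.val : ℤ)) = g 0 0 * y.val + g 0 1 * p := by exact_mod_cast h
  have h00 : g 0 0 = 1 := by exact_mod_cast e00.symm
  have := congrArg (Int.cast : ℤ → ZMod p) h'
  simpa [h00] using this

omit [NeZero N] in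
theorem isCosetFamily_heckeU {p : ℕ} [NeZero p] (hpN : p ∣ N) :
    IsCosetFamily (Gamma0 N) (fun x : ZMod p ↦ heckeMatrix p x.val) where
  exists_perm γ := by
    have hcN : (N : ℤ) ∣ (γ : SL(2, ℤ)) 1 0 :=
      (ZMod.intCast_zmod_eq_zero_iff_dvd _ _).mp (Gamma0_mem.mp γ.2)
    have hc : (p : ℤ) ∣ (γ : SL(2, ℤ)) 1 0 := (Int.natCast_dvd_natCast.mpr hpN).trans hcN
    choose g hg hmul using fun x ↦ heckeMatrix_mul_of_dvd (γ : SL(2, ℤ)) hc x
    exact ⟨affinePerm (γ : SL(2, ℤ)) ((ZMod.intCast_zmod_eq_zero_iff_dvd _ _).mpr hc),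
      fun x ↦ ⟨g x, by rw [Gamma0_mem, hg, Int.cast_mul, Gamma0_mem.mp γ.2, mul_zero]⟩, hmul⟩
  eq_of_mem _ _ _ e := heckeMatrix_injective_mod e

omit [NeZero N] in
theorem isCosetFamily_heckeT {p : ℕ} [Fact p.Prime] (hpN : ¬ p ∣ N) :
    IsCosetFamily (Gamma0 N) (fun x : OnePoint (ZMod p) ↦ heckeRep p x) where
  exists_perm γ := by
    have hcN : (N : ℤ) ∣ (γ : SL(2, ℤ)) 1 0 :=
      (ZMod.intCast_zmod_eq_zero_iff_dvd _ _).mp (Gamma0_mem.mp γ.2)
    choose g hg hmul using fun x ↦ heckeRep_mul hpN (γ : SL(2, ℤ)) hcN x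
    exact ⟨MulAction.toPerm (redMatrix p (γ : SL(2, ℤ))),
      fun x ↦ ⟨g x, Gamma0_mem.mpr ((ZMod.intCast_zmod_eq_zero_iff_dvd _ _).mpr (hg x))⟩, hmul⟩
  eq_of_mem i j g e := by
    have hp : p ≠ 0 := (Fact.out : p.Prime).ne_zero
    have : NeZero p := ⟨hp⟩
    have hp1 : ¬ (p : ℤ) ∣ 1 := fun hd ↦
      (Fact.out : p.Prime).one_lt.ne' (by simpa using Int.eq_one_of_dvd_one (by positivity) hd)
    induction i using OnePoint.rec with
    | infty =>
      induction j using OnePoint.rec with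
      | infty => rfl
      | coe y =>
        exfalso
        have e10 := intCast_val_eq_of_eq (A := heckeDiagMatrix p) (B := heckeMatrix p y.val) e 1 0
        have e11 := intCast_val_eq_of_eq (A := heckeDiagMatrix p) (B := heckeMatrix p y.val) e 1 1
        simp [ModularForm.val_heckeMatrix hp, ModularForm.val_heckeDiagMatrix hp] at e10 e11
        have h10 : (g : SL(2, ℤ)) 1 0 = 0 := by exact_mod_cast e10.symm
        rw [h10] at e11
        refine hp1 ⟨(g : SL(2, ℤ)) 1 1, ?_⟩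
        have : ((1 : ℤ) : ℝ) = (((p : ℤ) * (g : SL(2, ℤ)) 1 1 : ℤ) : ℝ) := by
          push_cast; push_cast at e11; linarith
        exact_mod_cast this
    | coe x =>
      induction j using OnePoint.rec with
      | infty =>
        exfalso
        have e00 := intCast_val_eq_of_eq (A := heckeMatrix p x.val) (B := heckeDiagMatrix p) e 0 0
        simp [ModularForm.val_heckeMatrix hp, ModularForm.val_heckeDiagMatrix hp] at e00
        refine hp1 ⟨(g : SL(2, ℤ)) 0 0, ?_⟩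
        have : ((1 : ℤ) : ℝ) = (((p : ℤ) * (g : SL(2, ℤ)) 0 0 : ℤ) : ℝ) := by
          push_cast; linarith
        exact_mod_cast this
      | coe y => exact congrArg _ (heckeMatrix_injective_mod e)

section Operators

variable (R : Type*) [Semiring R] (A : Type*) [AddCommGroup A] [Module R A]

/-- The Hecke operator `T_p` on `Hom(Γ₀(N), A)`, `p ∤ N`. -/
def heckeTHom {p : ℕ} (hp : p.Prime) (hpN : ¬ p ∣ N) :
    (Additive (Gamma0 N) →+ A) →ₗ[R] (Additive (Gamma0 N) →+ A) :=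
  haveI : Fact p.Prime := ⟨hp⟩
  haveI : NeZero p := ⟨hp.ne_zero⟩
  (isCosetFamily_heckeT (N := N) hpN).transfer R A

/-- The Hecke operator `U_p` on `Hom(Γ₀(N), A)`, `p ∣ N`. -/
def heckeUHom {p : ℕ} (hpN : p ∣ N) :
    (Additive (Gamma0 N) →+ A) →ₗ[R] (Additive (Gamma0 N) →+ A) :=
  haveI : NeZero p := ⟨fun h ↦ NeZero.ne N (Nat.eq_zero_of_zero_dvd (h ▸ hpN))⟩
  (isCosetFamily_heckeU (N := N) hpN).transfer R A

variable {R A}

omit [NeZero N] in
theorem heckeTHom_isEllParHom {p : ℕ} (hp : p.Prime) (hpN : ¬ p ∣ N)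
    {φ : Additive (Gamma0 N) →+ A} (hφ : IsEllParHom φ) :
    IsEllParHom (heckeTHom R A hp hpN φ) := by
  have : Fact p.Prime := ⟨hp⟩
  have : NeZero p := ⟨hp.ne_zero⟩
  exact IsCosetFamily.transfer_isEllParHom _ hφ

theorem heckeUHom_isEllParHom {p : ℕ} (hpN : p ∣ N)
    {φ : Additive (Gamma0 N) →+ A} (hφ : IsEllParHom φ) :
    IsEllParHom (heckeUHom R A hpN φ) :=
  haveI : NeZero p := ⟨fun h ↦ NeZero.ne N (Nat.eq_zero_of_zero_dvd (h ▸ hpN))⟩
  IsCosetFamily.transfer_isEllParHom _ hφ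

omit [NeZero N] in
theorem heckeTHom_comp {p : ℕ} (hp : p.Prime) (hpN : ¬ p ∣ N) {R' : Type*} [Semiring R']
    {B : Type*} [AddCommGroup B] [Module R' B] (u : A →+ B) (φ : Additive (Gamma0 N) →+ A) :
    heckeTHom R' B hp hpN (u.comp φ) = u.comp (heckeTHom R A hp hpN φ) := by
  have : Fact p.Prime := ⟨hp⟩
  have : NeZero p := ⟨hp.ne_zero⟩
  exact IsCosetFamily.transfer_comp _ u φ

theorem heckeUHom_comp {p : ℕ} (hpN : p ∣ N) {R' : Type*} [Semiring R']
    {B : Type*} [AddCommGroup B] [Module R' B] (u : A →+ B) (φ : Additive (Gamma0 N) →+ A) :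
    heckeUHom R' B hpN (u.comp φ) = u.comp (heckeUHom R A hpN φ) :=
  haveI : NeZero p := ⟨fun h ↦ NeZero.ne N (Nat.eq_zero_of_zero_dvd (h ▸ hpN))⟩
  IsCosetFamily.transfer_comp _ u φ

end Operators

/-- The period map is `T_p`-equivariant. -/
theorem periodMap_heckeTLin {p : ℕ} (hp : p.Prime) (hpN : ¬ p ∣ N) (f : CuspForm (Gamma0 N) 2) :
    periodMap N (CuspForm.heckeTLin 2 hp hpN f) = heckeTHom ℂ ℂ hp hpN (periodMap N f) := by
  have : Fact p.Prime := ⟨hp⟩
  have : NeZero p := ⟨hp.ne_zero⟩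
  refine periodMap_eq_transfer _ (fun i ↦ ?_) f _ ?_
  · induction i using OnePoint.rec with
    | infty => exact ModularForm.det_heckeDiagMatrix_pos p
    | coe x => exact ModularForm.det_heckeMatrix_pos p x.val
  · rw [CuspForm.coe_heckeTLin_apply]
    exact heckeT_eq_sum_onePoint 2 _

/-- The period map is `U_p`-equivariant. -/
theorem periodMap_heckeULin {p : ℕ} (hpN : p ∣ N) (f : CuspForm (Gamma0 N) 2) :
    periodMap N (CuspForm.heckeULin 2 hpN f) = heckeUHom ℂ ℂ hpN (periodMap N f) := by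
  have : NeZero p := ⟨fun h ↦ NeZero.ne N (Nat.eq_zero_of_zero_dvd (h ▸ hpN))⟩
  refine periodMap_eq_transfer (isCosetFamily_heckeU (p := p) hpN) ?_ f _ ?_
  · intro i
    exact ModularForm.det_heckeMatrix_pos p i.val
  · rw [CuspForm.coe_heckeULin_apply]
    exact heckeU_eq_sum_zmod 2 _

end Fermat.Agent.Periods
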