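import Mathlib
import Fermat.Prelude.Def_ModularCurve_PeriodHomPair
import Fermat.Agent.Periods.Injective
import Fermat.Agent.Periods.HeckeHom

/-!
# Hecke equivariance of `periodHomPair`

`charInvolution` commutes with the operators `T_p` and `U_p` on homomorphisms, so the pair period
map is equivariant (`periodHomPair_heckeTLin`, `periodHomPair_heckeULin`).
-/

set_option autoImplicit false

noncomputable section

namespace Fermat.Agent.Periods

open UpperHalfPlane CongruenceSubgroup ModularCurve ModularCurve.Period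
open ModularForm (heckeMatrix heckeDiagMatrix)
open scoped MatrixGroups OnePoint
open P2MW.S_ModularForm_heckeT_slash_eq_self_of_mem_Gamma0.ModularForm.HeckeSlashInvariance
  (heckeRep)

variable {N : ℕ} [NeZero N]

omit [NeZero N] in
/-- A coset family stable under conjugation by `J` has transfer commuting with `charInvolution`. -/
theorem charInvolution_transfer {ι : Type*} [Fintype ι] {α : ι → GL (Fin 2) ℝ}
    (h : IsCosetFamily (Gamma0 N) α)
    (hJ : ∀ i, ∃ (j : ι) (β : Gamma0 N),
      UpperHalfPlane.J * α i * UpperHalfPlane.J = toGLR β * α j)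
    {R : Type*} [Semiring R] {A : Type*} [AddCommGroup A] [Module R A]
    (φ : Additive (Gamma0 N) →+ A) :
    charInvolution N R A (h.transfer R A φ) = h.transfer R A (charInvolution N R A φ) :=
  h.transfer_comp_conj hJ (jConjGamma0 N) (fun _ ↦ rfl) φ

omit [NeZero N] in
theorem exists_J_conj_heckeMatrix {p : ℕ} [NeZero p] (x : ZMod p) :
    ∃ (y : ZMod p) (β : Gamma0 N),
      UpperHalfPlane.J * heckeMatrix p x.val * UpperHalfPlane.J
        = toGLR β * heckeMatrix p y.val := by
  obtain ⟨m, hm⟩ : (p : ℤ) ∣ -(x.val : ℤ) - ((-x).val : ℤ) := by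
    rw [← ZMod.intCast_zmod_eq_zero_iff_dvd]
    push_cast
    simp
  refine ⟨-x, ⟨⟨!![1, m; 0, 1], by rw [Matrix.det_fin_two_of]; ring⟩, by simp [Gamma0_mem]⟩, ?_⟩
  have hm' := congrArg (Int.cast : ℤ → ℝ) hm
  push_cast at hm'
  ext i j
  fin_cases i <;> fin_cases j <;>
    simp [toGLR, Matrix.mul_apply, Fin.sum_univ_two, ModularForm.val_heckeMatrix (NeZero.ne p),
      -ZMod.natCast_val]
  linarith

omit [NeZero N] in
/-- The involution commutes with `T_p`. -/
theorem charInvolution_heckeTHom {p : ℕ} (hp : p.Prime) (hpN : ¬ p ∣ N)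
    {R : Type*} [Semiring R] {A : Type*} [AddCommGroup A] [Module R A]
    (φ : Additive (Gamma0 N) →+ A) :
    charInvolution N R A (heckeTHom R A hp hpN φ)
      = heckeTHom R A hp hpN (charInvolution N R A φ) := by
  have : Fact p.Prime := ⟨hp⟩
  have : NeZero p := ⟨hp.ne_zero⟩
  refine charInvolution_transfer _ (fun i ↦ ?_) φ
  induction i using OnePoint.rec with
  | infty =>
    refine ⟨∞, 1, ?_⟩
    show UpperHalfPlane.J * heckeDiagMatrix p * UpperHalfPlane.J = toGLR 1 * heckeDiagMatrix p
    ext i j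
    fin_cases i <;> fin_cases j <;>
      simp [toGLR, Matrix.mul_apply, Fin.sum_univ_two, ModularForm.val_heckeDiagMatrix hp.ne_zero]
  | coe x =>
    obtain ⟨y, β, h⟩ := exists_J_conj_heckeMatrix (N := N) x
    exact ⟨(y : OnePoint (ZMod p)), β, h⟩

theorem charInvolution_heckeUHom {p : ℕ} (hpN : p ∣ N)
    {R : Type*} [Semiring R] {A : Type*} [AddCommGroup A] [Module R A]
    (φ : Additive (Gamma0 N) →+ A) :
    charInvolution N R A (heckeUHom R A hpN φ)
      = heckeUHom R A hpN (charInvolution N R A φ) := by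
  have : NeZero p := ⟨fun h ↦ NeZero.ne N (Nat.eq_zero_of_zero_dvd (h ▸ hpN))⟩
  exact charInvolution_transfer _ exists_J_conj_heckeMatrix φ

/-- The pair period map is `T_p`-equivariant. -/
theorem periodHomPair_heckeTLin {p : ℕ} (hp : p.Prime) (hpN : ¬ p ∣ N)
    (f g : CuspForm (Gamma0 N) 2) :
    periodHomPair N (CuspForm.heckeTLin 2 hp hpN f, CuspForm.heckeTLin 2 hp hpN g)
      = heckeTHom ℂ ℂ hp hpN (periodHomPair N (f, g)) := by
  rw [periodHomPair_apply, periodHomPair_apply, ← map_add (CuspForm.heckeTLin 2 hp hpN),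
    ← map_sub (CuspForm.heckeTLin 2 hp hpN), periodMap_heckeTLin, periodMap_heckeTLin,
    charInvolution_heckeTHom, map_add (heckeTHom ℂ ℂ hp hpN)]

/-- The pair period map is `U_p`-equivariant. -/
theorem periodHomPair_heckeULin {p : ℕ} (hpN : p ∣ N) (f g : CuspForm (Gamma0 N) 2) :
    periodHomPair N (CuspForm.heckeULin 2 hpN f, CuspForm.heckeULin 2 hpN g)
      = heckeUHom ℂ ℂ hpN (periodHomPair N (f, g)) := by
  rw [periodHomPair_apply, periodHomPair_apply, ← map_add (CuspForm.heckeULin 2 hpN),
    ← map_sub (CuspForm.heckeULin 2 hpN), periodMap_heckeULin, periodMap_heckeULin,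
    charInvolution_heckeUHom, map_add (heckeUHom ℂ ℂ hpN)]

end Fermat.Agent.Periods
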