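import Mathlib
import Fermat.Prelude.Def_ModularCurve_PeriodHomPair
import Fermat.Prelude.Def_ModularCurve_GenusNumerics
import Fermat.Agent.Periods.Parabolic
import Fermat.Agent.Cosets.ParabolicRank

/-!
# The image of `periodHomPair`

The pair period map is injective into the parabolic homomorphisms; by comparison of dimensions it
is onto as soon as `dim S₂(Γ₀(N))` is at least the genus.
-/

set_option autoImplicit false

noncomputable section

namespace Fermat.Agent.Periods

open CongruenceSubgroup ModularCurve ModularCurve.Period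

/-- `S₂(Γ₀(N))` is finite dimensional. -/
theorem finiteDimensional_cuspForm_two (N : ℕ) [NeZero N] :
    FiniteDimensional ℂ (CuspForm (Gamma0 N) 2) := by
  have := Cosets.finiteDimensional_parabolicHoms N
  let e : CuspForm (Gamma0 N) 2 →ₗ[ℂ] parabolicHoms ℂ (Gamma0 N) ℂ :=
    LinearMap.codRestrict _ ((periodHomPair N).comp (LinearMap.inl ℂ _ _))
      (fun f ↦ range_periodHomPair_le N ⟨(f, 0), rfl⟩)
  refine FiniteDimensional.of_injective e fun f g h ↦ ?_
  have h' : periodHomPair N (f, 0) = periodHomPair N (g, 0) := congrArg Subtype.val h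
  exact (Prod.ext_iff.mp (periodHomPair_injective N h')).1

/-- Half of the dimension formula: `dim S₂(Γ₀(N)) ≤ genus`. -/
theorem finrank_cuspForm_two_le_genus (N : ℕ) [NeZero N] :
    (Module.finrank ℂ (CuspForm (Gamma0 N) 2) : ℚ) ≤ genusFormula N := by
  have := Cosets.finiteDimensional_parabolicHoms N
  have := finiteDimensional_cuspForm_two N
  have h := Submodule.finrank_mono (range_periodHomPair_le N)
  rw [LinearMap.finrank_range_of_inj (periodHomPair_injective N), Module.finrank_prod] at h
  have h2 := Cosets.finrank_parabolicHoms N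
  have h' : ((Module.finrank ℂ (CuspForm (Gamma0 N) 2) : ℚ))
      + (Module.finrank ℂ (CuspForm (Gamma0 N) 2) : ℚ)
      ≤ (Module.finrank ℂ (parabolicHoms ℂ (Gamma0 N) ℂ) : ℚ) := by exact_mod_cast h
  linarith

/-- The image is everything once `dim S₂` reaches the genus. -/
theorem range_periodHomPair_of_genus_le (N : ℕ) [NeZero N]
    (hg : genusFormula N ≤ (Module.finrank ℂ (CuspForm (Gamma0 N) 2) : ℚ)) :
    LinearMap.range (periodHomPair N) = parabolicHoms ℂ (Gamma0 N) ℂ := by
  have := Cosets.finiteDimensional_parabolicHoms N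
  have := finiteDimensional_cuspForm_two N
  refine Submodule.eq_of_le_of_finrank_le (range_periodHomPair_le N) ?_
  rw [LinearMap.finrank_range_of_inj (periodHomPair_injective N), Module.finrank_prod]
  have h2 := Cosets.finrank_parabolicHoms N
  have h' : (Module.finrank ℂ (parabolicHoms ℂ (Gamma0 N) ℂ) : ℚ)
      ≤ (Module.finrank ℂ (CuspForm (Gamma0 N) 2) : ℚ)
        + (Module.finrank ℂ (CuspForm (Gamma0 N) 2) : ℚ) := by linarith
  exact_mod_cast h'

end Fermat.Agent.Periods
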